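import Fermat.Agent.Kesten.Spectral
import Fermat.Agent.Amenable.Folner

/-!
# Kesten's criterion

A group generated by symmetric steps, one of which is trivial, is amenable exactly when the closed
words are not exponentially few.
-/

set_option autoImplicit false

noncomputable section

namespace FA.Kesten

open Finset FA.Amenable
open scoped Classical

variable {G ι : Type*} [Group G] [Fintype ι]

omit [Fintype ι] in
theorem moved_mul_le (g h : G) (F : Finset G) :
    #(F.image ((g * h) * ·) \ F) ≤ #(F.image (h * ·) \ F) + #(F.image (g * ·) \ F) := by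
  have e : F.image ((g * h) * ·) \ F ⊆
      (F.image (h * ·) \ F).image (g * ·) ∪ (F.image (g * ·) \ F) := by
    intro y hy
    simp only [mem_sdiff, mem_image] at hy
    obtain ⟨⟨x, hx, rfl⟩, hy⟩ := hy
    rw [mul_assoc] at hy ⊢
    by_cases hhx : h * x ∈ F
    · exact mem_union_right _ (mem_sdiff.2 ⟨mem_image_of_mem _ hhx, hy⟩)
    · exact mem_union_left _ (mem_image_of_mem _ (mem_sdiff.2 ⟨mem_image_of_mem _ hx, hhx⟩))
  exact (card_le_card e).trans ((card_union_le _ _).trans (Nat.add_le_add_right card_image_le _))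

omit [Fintype ι] in
theorem moved_inv (g : G) (F : Finset G) :
    #(F.image (g⁻¹ * ·) \ F) = #(F.image (g * ·) \ F) := by
  have h := card_sdiff_comm (s := F.image (g * ·)) (t := F)
    (card_image_of_injective _ (mul_right_injective _))
  rw [h, ← card_image_of_injective (F.image (g⁻¹ * ·) \ F) (mul_right_injective g),
    image_sdiff _ _ (mul_right_injective g), image_image]
  simp [Function.comp_def]

/-- Without almost invariance for the generators there is none for any element. -/
theorem moved_le (u : ι → G) {g : G} (hg : g ∈ Subgroup.closure (Set.range u)) :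
    ∃ K : ℕ, ∀ F : Finset G, #(F.image (g * ·) \ F) ≤ K * ∑ i, #(F.image (u i * ·) \ F) := by
  induction hg using Subgroup.closure_induction with
  | mem g hg =>
    obtain ⟨i, rfl⟩ := hg
    exact ⟨1, fun F => by
      rw [one_mul]
      exact single_le_sum (f := fun i => #(F.image (u i * ·) \ F)) (fun _ _ => Nat.zero_le _)
        (mem_univ i)⟩
  | one => exact ⟨0, fun F => by simp⟩
  | mul g h _ _ hg hh =>
    obtain ⟨K, hK⟩ := hg
    obtain ⟨L, hL⟩ := hh
    exact ⟨L + K, fun F => (moved_mul_le g h F).trans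
      ((Nat.add_le_add (hL F) (hK F)).trans (le_of_eq (add_mul _ _ _).symm))⟩
  | inv g _ hg =>
    obtain ⟨K, hK⟩ := hg
    exact ⟨K, fun F => (moved_inv g F).trans_le (hK F)⟩

/-- **Failure of amenability is uniform expansion by any generators.** -/
theorem expands_of_not_amenable {u : ι → G} (hgen : Subgroup.closure (Set.range u) = ⊤)
    (h : ¬ IsAmenable G) : ∃ ε : ℝ, 0 < ε ∧ Expands u ε := by
  by_contra! hne
  refine h (isAmenable_iff_isFolner.2 fun S ε hε => ?_)
  have hK := fun g : G => moved_le u (g := g) (hgen ▸ Subgroup.mem_top g)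
  choose K hK using hK
  set δ := ε / ((∑ g ∈ S, (K g : ℝ)) * Fintype.card ι + 1)
  obtain ⟨F, hF, hFi⟩ : ∃ F : Finset G, F.Nonempty ∧
      ∀ i, (#(F.image (u i * ·) \ F) : ℝ) < δ * #F := by
    have := hne δ (div_pos hε (by positivity))
    simp only [Expands] at this
    push Not at this
    exact this
  refine ⟨F, hF, fun s hs => ?_⟩
  calc (#(F.image (s * ·) \ F) : ℝ) ≤ K s * ∑ i, (#(F.image (u i * ·) \ F) : ℝ) := by
        exact_mod_cast hK s F
    _ ≤ (∑ g ∈ S, (K g : ℝ)) * (Fintype.card ι * (δ * #F)) := by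
        refine mul_le_mul (single_le_sum (f := fun g => (K g : ℝ))
          (fun _ _ => Nat.cast_nonneg _) hs)
          ((sum_le_card_nsmul univ _ (δ * #F) fun i _ => (hFi i).le).trans_eq
            (by rw [nsmul_eq_mul, card_univ])) (by positivity) (by positivity)
    _ = ε * #F * ((∑ g ∈ S, (K g : ℝ)) * Fintype.card ι /
          ((∑ g ∈ S, (K g : ℝ)) * Fintype.card ι + 1)) := by simp only [δ]; ring
    _ ≤ ε * #F := mul_le_of_le_one_right (by positivity)
        ((div_le_one (by positivity)).2 (by linarith))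

/-- Expansion rules out almost invariant sets. -/
theorem not_amenable_of_expands {u : ι → G} {ε : ℝ} (hε : 0 < ε) (h : Expands u ε) :
    ¬ IsAmenable G := fun hG => by
  obtain ⟨F, hF, hFi⟩ := isAmenable_iff_isFolner.1 hG (univ.image u) (ε / 2) (by positivity)
  obtain ⟨i, hi⟩ := h F hF
  have h2 := hi.trans (hFi (u i) (mem_image_of_mem _ (mem_univ i)))
  have h0 : (0 : ℝ) < #F := Nat.cast_pos.2 (card_pos.2 hF)
  nlinarith

/-- **Decay of the walk** in a subgroup which is not amenable. -/
theorem hits_le {u : ι → G} {i₀ : ι} (h1 : u i₀ = 1)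
    (h : ¬ IsAmenable (Subgroup.closure (Set.range u))) :
    ∃ θ : ℝ, 0 < θ ∧ θ < 1 ∧ ∀ n z, hits u n z ≤ θ ^ n * (Fintype.card ι : ℝ) ^ n := by
  set H := Subgroup.closure (Set.range u)
  set v : ι → H := fun i => ⟨u i, Subgroup.subset_closure (Set.mem_range_self i)⟩
  have hgen : Subgroup.closure (Set.range v) = ⊤ := by
    refine Subgroup.map_injective (H.subtype_injective) ?_
    rw [MonoidHom.map_closure, ← MonoidHom.range_eq_map, Subgroup.range_subtype, ← Set.range_comp]
    rfl
  obtain ⟨ε, hε, he⟩ := expands_of_not_amenable hgen h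
  obtain ⟨θ, h0, hlt, hθ⟩ := hits_le_of_expands hε he (i₀ := i₀) (Subtype.ext h1)
  have hv : ∀ {n : ℕ} (w : Fin n → ι), ((wordProd v w : H) : G) = wordProd u w := fun {n} w => by
    show H.subtype (wordProd v w) = _
    rw [wordProd, map_list_prod, List.map_ofFn]
    rfl
  refine ⟨θ, h0, hlt, fun n z => ?_⟩
  by_cases hz : z ∈ H
  · refine le_of_eq_of_le ?_ (hθ n ⟨z, hz⟩)
    simp only [hits, Subtype.ext_iff, hv]
  · rw [hits, filter_eq_empty_iff.2 fun w _ (e : wordProd u w = z) =>
      hz (by rw [← e, ← hv w]; exact (wordProd v w).2)]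
    simp only [card_empty, Nat.cast_zero]
    positivity

/-- **Kesten's criterion.** -/
theorem amenable_iff_returns {u : ι → G} (σ : ι ≃ ι) (hσ : ∀ i, u (σ i) = (u i)⁻¹) {i₀ : ι}
    (h1 : u i₀ = 1) (hgen : Subgroup.closure (Set.range u) = ⊤) :
    IsAmenable G ↔ ¬ ∃ C ρ : ℝ, ρ < 1 ∧
      ∀ n, hits u n 1 ≤ C * ρ ^ n * (Fintype.card ι : ℝ) ^ n := by
  constructor
  · rintro hG ⟨C, ρ, hρ, h⟩
    refine not_amenable_of_expands (show (0 : ℝ) < (1 - max ρ (1 / 2)) / 2 by
      linarith [max_lt hρ (show (1 / 2 : ℝ) < 1 by norm_num)]) (u := u) ?_ hG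
    refine expands_of_returns σ hσ h1 (C := |C| * 1) (by positivity)
      (le_max_of_le_right (by norm_num)) (max_lt hρ (by norm_num)) fun n => ?_
    have h0 := h 0
    simp only [hits, pow_zero, mul_one] at h0
    have hC : 0 ≤ C := (Nat.cast_nonneg _).trans h0
    rcases le_or_gt 0 ρ with hρ0 | hρ0
    · refine (h n).trans ?_
      rw [abs_of_nonneg hC, mul_one]
      gcongr
      exact le_max_left _ _
    · have hle : C * ρ ^ 1 * (Fintype.card ι : ℝ) ^ 1 < 0 ∨ C = 0 := by
        rcases hC.eq_or_lt with e | e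
        · exact .inr e.symm
        · refine .inl (mul_neg_of_neg_of_pos (mul_neg_of_pos_of_neg e (by simpa using hρ0)) ?_)
          rw [pow_one]
          exact Nat.cast_pos.2 (Fintype.card_pos_iff.2 ⟨i₀⟩)
      rcases hle with hneg | hC0
      · exact absurd ((Nat.cast_nonneg _).trans (h 1)) (not_le.2 hneg)
      · refine (h n).trans ?_
        simp [hC0]
  · intro h
    by_contra hG
    obtain ⟨θ, -, hlt, hθ⟩ := hits_le h1 (show ¬ IsAmenable (Subgroup.closure (Set.range u)) from
      fun hA => hG (by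
        rw [hgen] at hA
        exact hA.of_surjective (Subgroup.topEquiv (G := G)).toMonoidHom
          (Subgroup.topEquiv (G := G)).surjective))
    exact h ⟨1, θ, hlt, fun n => (hθ n 1).trans_eq (by rw [one_mul])⟩

end FA.Kesten

end
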