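import Mathlib.Algebra.Order.BigOperators.Ring.Finset
import Mathlib.Algebra.Group.Pointwise.Finset.Basic
import Mathlib.Algebra.BigOperators.Fin
import Mathlib.Analysis.Real.Sqrt
import Mathlib.Data.List.OfFn
import Mathlib.Tactic.Linarith
import Mathlib.Tactic.Positivity

/-!
# From expansion of sets to decay of the walk

If every finite set of a group is moved a definite amount by some step, then the functions with
finite support are moved too (a discrete coarea inequality), so averaging contracts them and the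
number of words with a given product is exponentially small.
-/

set_option autoImplicit false

noncomputable section

namespace FA.Kesten

open Finset
open scoped Classical

variable {G ι : Type*} [Group G]

/-- The product of a word. -/
def wordProd (u : ι → G) {n : ℕ} (w : Fin n → ι) : G := (List.ofFn fun i => u (w i)).prod

variable [Fintype ι]

/-- Every finite set is moved by some step. -/
def Expands (u : ι → G) (ε : ℝ) : Prop :=
  ∀ F : Finset G, F.Nonempty → ∃ i, ε * #F ≤ #(F.image (u i * ·) \ F)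

/-- **The discrete coarea inequality.** -/
theorem coarea {u : ι → G} {ε : ℝ} (h : Expands u ε) (F : Finset G) :
    ∀ g : G → ℝ, (∀ x, 0 ≤ g x) → (∀ x ∉ F, g x = 0) →
      ε * ∑ x ∈ F, g x ≤ ∑ i, ∑ x ∈ F, max (g x - g (u i * x)) 0 := by
  induction F using Finset.strongInduction with
  | _ F ih =>
    intro g hg hF
    rcases F.eq_empty_or_nonempty with rfl | hne
    · simp
    obtain ⟨x₀, hx₀, hmin⟩ := exists_min_image F g hne
    set g' : G → ℝ := fun x => if x ∈ F then g x - g x₀ else 0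
    have hg' : ∀ x, 0 ≤ g' x := fun x => by
      simp only [g']
      split_ifs with hx
      · linarith [hmin x hx]
      · exact le_rfl
    have h0 : g' x₀ = 0 := by simp [g', hx₀]
    have hrec := ih (F.erase x₀) (erase_ssubset hx₀) g' hg' fun x hx => by
      rcases eq_or_ne x x₀ with rfl | hxne
      · exact h0
      · simp [g', show x ∉ F from fun h => hx (mem_erase.2 ⟨hxne, h⟩)]
    have e1 : ∑ x ∈ F.erase x₀, g' x = ∑ x ∈ F, g' x := sum_erase _ h0
    have e2 : ∀ i, ∑ x ∈ F.erase x₀, max (g' x - g' (u i * x)) 0 =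
        ∑ x ∈ F, max (g' x - g' (u i * x)) 0 := fun i =>
      sum_erase _ (by rw [h0, zero_sub]; exact max_eq_right (by linarith [hg' (u i * x₀)]))
    rw [e1, sum_congr rfl fun i _ => e2 i] at hrec
    have e3 : ∀ i, ∀ x ∈ F, max (g x - g (u i * x)) 0 = max (g' x - g' (u i * x)) 0 +
        g x₀ * (if u i * x ∉ F then 1 else 0) := fun i x hx => by
      by_cases hux : u i * x ∈ F
      · simp [g', hx, hux]
      · rw [hF _ hux, sub_zero, max_eq_left (hg x)]
        simp [g', hx, hux, max_eq_left (sub_nonneg.2 (hmin x hx))]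
    have e4 : ∀ i, ∑ x ∈ F, (if u i * x ∉ F then (1 : ℝ) else 0) = #(F.image (u i * ·) \ F) :=
      fun i => by
        rw [sum_boole, show F.image (u i * ·) \ F =
          (F.filter fun x => u i * x ∉ F).image (u i * ·) by ext y; aesop,
          card_image_of_injective _ (mul_right_injective _)]
    have e5 : ∑ x ∈ F, g x = ∑ x ∈ F, g' x + g x₀ * #F := by
      rw [mul_comm, ← nsmul_eq_mul, ← sum_const, ← sum_add_distrib]
      exact sum_congr rfl fun x hx => by simp [g', hx]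
    obtain ⟨i, hi⟩ := h F hne
    have e6 : ε * #F ≤ ∑ i, (#(F.image (u i * ·) \ F) : ℝ) :=
      hi.trans (single_le_sum (f := fun i => (#(F.image (u i * ·) \ F) : ℝ))
        (fun _ _ => Nat.cast_nonneg _) (mem_univ i))
    rw [sum_congr rfl fun i _ => sum_congr rfl (e3 i), e5]
    simp only [sum_add_distrib, ← mul_sum, e4]
    have := mul_le_mul_of_nonneg_left e6 (hg x₀)
    linarith

theorem sum_mul_left_sq_le (g : G) {f : G → ℝ} {F : Finset G} (hF : ∀ x ∉ F, f x = 0)
    (T : Finset G) : ∑ x ∈ T, f (g * x) ^ 2 ≤ ∑ x ∈ F, f x ^ 2 := by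
  rw [← sum_image (f := fun y => f y ^ 2) fun a _ b _ h => mul_left_cancel h,
    ← sum_filter_of_ne (p := (· ∈ F)) fun y _ hy => by_contra fun h => hy (by simp [hF y h])]
  exact sum_le_sum_of_subset_of_nonneg (fun y hy => (mem_filter.1 hy).2) fun _ _ _ => sq_nonneg _

/-- **Expansion of functions.** -/
theorem energy_le {u : ι → G} {ε : ℝ} (hε : 0 ≤ ε) (h : Expands u ε) {f : G → ℝ} {F : Finset G}
    (hF : ∀ x ∉ F, f x = 0) :
    ε ^ 2 * ∑ x ∈ F, f x ^ 2 ≤
      4 * Fintype.card ι * ∑ i, ∑ x ∈ F, (f x - f (u i * x)) ^ 2 := by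
  set σ := ∑ x ∈ F, f x ^ 2
  have hσ : 0 ≤ σ := sum_nonneg fun _ _ => sq_nonneg _
  set Z := (univ : Finset ι) ×ˢ F
  have h1 : ε * σ ≤ ∑ z ∈ Z, |f z.2 - f (u z.1 * z.2)| * |f z.2 + f (u z.1 * z.2)| := by
    refine (coarea h F (fun x => f x ^ 2) (fun x => sq_nonneg _)
      fun x hx => by simp [hF x hx]).trans ?_
    rw [sum_product]
    refine sum_le_sum fun i _ => sum_le_sum fun x _ => max_le ?_ (by positivity)
    rw [sq_sub_sq, ← abs_mul, mul_comm]
    exact le_abs_self _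
  have hB : ∑ z ∈ Z, (f z.2 + f (u z.1 * z.2)) ^ 2 ≤ 4 * Fintype.card ι * σ := by
    rw [sum_product]
    refine (sum_le_card_nsmul _ _ (4 * σ) fun i _ => ?_).trans_eq
      (by rw [nsmul_eq_mul, card_univ]; ring)
    calc ∑ x ∈ F, (f x + f (u i * x)) ^ 2 ≤ ∑ x ∈ F, (2 * f x ^ 2 + 2 * f (u i * x) ^ 2) :=
          sum_le_sum fun x _ => by nlinarith [sq_nonneg (f x - f (u i * x))]
      _ ≤ 4 * σ := by
          rw [sum_add_distrib, ← mul_sum, ← mul_sum]
          linarith [sum_mul_left_sq_le (u i) hF F]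
  have hCS := sum_mul_sq_le_sq_mul_sq Z (fun z => |f z.2 - f (u z.1 * z.2)|)
    fun z => |f z.2 + f (u z.1 * z.2)|
  simp only [sq_abs] at hCS
  set D := ∑ i, ∑ x ∈ F, (f x - f (u i * x)) ^ 2
  rw [show ∑ z ∈ Z, (f z.2 - f (u z.1 * z.2)) ^ 2 = D from sum_product _ _ _] at hCS
  have hD : 0 ≤ D := sum_nonneg fun _ _ => sum_nonneg fun _ _ => sq_nonneg _
  have h2 : (ε * σ) ^ 2 ≤ D * (4 * Fintype.card ι * σ) :=
    ((pow_le_pow_left₀ (mul_nonneg hε hσ) h1 2).trans hCS).trans
      (mul_le_mul_of_nonneg_left hB hD)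
  rcases hσ.eq_or_lt with e | e
  · rw [← e, mul_zero]
    positivity
  · refine le_of_mul_le_mul_right ?_ e
    linarith

/-- Averaging over the steps. -/
def avg (u : ι → G) (f : G → ℝ) (x : G) : ℝ := ∑ i, f ((u i)⁻¹ * x)

/-- The supports of the walk. -/
def ball (u : ι → G) (F : Finset G) : ℕ → Finset G
  | 0 => F
  | n + 1 => (univ ×ˢ ball u F n).image fun z : ι × G => u z.1 * z.2

theorem avg_eq_zero (u : ι → G) {f : G → ℝ} {F : Finset G} (hF : ∀ x ∉ F, f x = 0) :
    ∀ x ∉ ball u F 1, avg u f x = 0 := fun _ hx => sum_eq_zero fun i _ => hF _ fun h =>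
  hx (mem_image.2 ⟨(i, _), mem_product.2 ⟨mem_univ _, h⟩, mul_inv_cancel_left _ _⟩)

/-- **Contraction.** -/
theorem avg_sq_le {u : ι → G} {ε : ℝ} (hε : 0 ≤ ε) (h : Expands u ε) {i₀ : ι} (h1 : u i₀ = 1)
    {f : G → ℝ} {F : Finset G} (hF : ∀ x ∉ F, f x = 0) :
    ∑ x ∈ ball u F 1, avg u f x ^ 2 ≤
      ((Fintype.card ι : ℝ) ^ 2 - ε ^ 2 / (8 * Fintype.card ι)) * ∑ x ∈ F, f x ^ 2 := by
  set m : ℝ := (Fintype.card ι : ℝ)
  set T := ball u F 1
  set a : ι → G → ℝ := fun i x => f ((u i)⁻¹ * x)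
  have hid : ∀ x, ∑ i, ∑ j, (a i x - a j x) ^ 2 =
      2 * m * ∑ i, a i x ^ 2 - 2 * avg u f x ^ 2 := fun x => by
    simp only [sub_sq, sum_add_distrib, sum_sub_distrib, sum_const, nsmul_eq_mul, ← mul_sum,
      ← sum_mul, card_univ, avg, m, a]
    ring
  have hlow : ∑ i, ∑ x ∈ F, (f x - f (u i * x)) ^ 2 ≤ ∑ x ∈ T, ∑ i, ∑ j, (a i x - a j x) ^ 2 := by
    rw [sum_comm (s := T)]
    refine sum_le_sum fun i _ => le_trans ?_ (sum_le_sum fun x _ =>
      single_le_sum (f := fun j => (a i x - a j x) ^ 2) (fun j _ => sq_nonneg _) (mem_univ i₀))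
    refine le_trans (le_of_eq ?_) (sum_le_sum_of_subset_of_nonneg (s := F.image (u i * ·))
      (fun y hy => ?_) fun _ _ _ => sq_nonneg _)
    · rw [sum_image fun x _ y _ e => mul_left_cancel e]
      exact sum_congr rfl fun x _ => by simp [a, h1]
    · obtain ⟨x, hx, rfl⟩ := mem_image.1 hy
      exact mem_image.2 ⟨(i, x), mem_product.2 ⟨mem_univ _, hx⟩, rfl⟩
  have htot : ∑ x ∈ T, ∑ i, a i x ^ 2 ≤ m * ∑ x ∈ F, f x ^ 2 := by
    rw [sum_comm]
    exact (sum_le_card_nsmul _ _ _ fun i _ => sum_mul_left_sq_le (u i)⁻¹ hF T).trans_eq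
      (by rw [nsmul_eq_mul, card_univ])
  have hm : 0 < m := Nat.cast_pos.2 (Fintype.card_pos_iff.2 ⟨i₀⟩)
  have he := (energy_le hε h hF).trans (mul_le_mul_of_nonneg_left hlow (by positivity))
  simp only [hid, sum_sub_distrib, ← mul_sum] at he
  have h3 : ε ^ 2 / (8 * m) * ∑ x ∈ F, f x ^ 2 ≤
      m * (∑ x ∈ T, ∑ i, a i x ^ 2) - ∑ x ∈ T, avg u f x ^ 2 := by
    rw [div_mul_eq_mul_div, div_le_iff₀ (by positivity)]
    linarith
  have h4 := mul_le_mul_of_nonneg_left htot hm.le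
  linarith

/-- The number of words with a given product. -/
def hits (u : ι → G) (n : ℕ) (z : G) : ℝ :=
  (#(univ.filter fun w : Fin n → ι => wordProd u w = z) : ℝ)

omit [Fintype ι] in
theorem wordProd_cons (u : ι → G) {n : ℕ} (i : ι) (w : Fin n → ι) :
    wordProd u (Fin.cons i w : Fin (n + 1) → ι) = u i * wordProd u w := by
  simp [wordProd, List.ofFn_succ]

theorem hits_succ (u : ι → G) (n : ℕ) : hits u (n + 1) = avg u (hits u n) := by
  funext z
  have e : #(univ.filter fun w : Fin (n + 1) → ι => wordProd u w = z) =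
      #(univ.filter fun x : ι × (Fin n → ι) => wordProd u x.2 = (u x.1)⁻¹ * z) := by
    refine (card_equiv (Fin.consEquiv fun _ : Fin (n + 1) => ι) fun x => ?_).symm
    simp [Fin.consEquiv, wordProd_cons, eq_inv_mul_iff_mul_eq]
  rw [hits, e, ← univ_product_univ, card_filter, sum_product, Nat.cast_sum]
  refine sum_congr rfl fun i _ => ?_
  rw [hits, card_filter]

theorem hits_eq_zero (u : ι → G) : ∀ n, ∀ x ∉ ball u {1} n, hits u n x = 0
  | 0 => fun x hx => by
    simp only [ball, mem_singleton] at hx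
    simp [hits, wordProd, Ne.symm hx]
  | n + 1 => by
    rw [hits_succ]
    exact avg_eq_zero u (hits_eq_zero u n)

/-- **Exponential decay of the walk.** -/
theorem hits_le_of_expands {u : ι → G} {ε : ℝ} (hε : 0 < ε) (h : Expands u ε) {i₀ : ι}
    (h1 : u i₀ = 1) : ∃ θ : ℝ, 0 < θ ∧ θ < 1 ∧ ∀ n z,
      hits u n z ≤ θ ^ n * (Fintype.card ι : ℝ) ^ n := by
  set m : ℝ := (Fintype.card ι : ℝ)
  have hm : 0 < m := Nat.cast_pos.2 (Fintype.card_pos_iff.2 ⟨i₀⟩)
  set κ := max (1 / 2) (1 - ε ^ 2 / (8 * m) / m ^ 2)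
  have hκ0 : 0 < κ := lt_of_lt_of_le (by norm_num) (le_max_left _ _)
  have hκ1 : κ < 1 := max_lt (by norm_num) (by
    have : 0 < ε ^ 2 / (8 * m) / m ^ 2 := by positivity
    linarith)
  refine ⟨√κ, Real.sqrt_pos.2 hκ0, (Real.sqrt_lt' one_pos).2 (by rwa [one_pow]), fun n z => ?_⟩
  have hnorm : ∀ n, ∑ x ∈ ball u {1} n, hits u n x ^ 2 ≤ (√κ ^ n * m ^ n) ^ 2 := by
    intro n
    induction n with
    | zero => simp [ball, hits, wordProd]
    | succ n ih =>
      have hs := avg_sq_le hε.le h h1 (hits_eq_zero u n)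
      have hσ : 0 ≤ ∑ x ∈ ball u {1} n, hits u n x ^ 2 := sum_nonneg fun _ _ => sq_nonneg _
      have hk : m ^ 2 - ε ^ 2 / (8 * m) ≤ κ * m ^ 2 := by
        refine le_trans (le_of_eq ?_) (mul_le_mul_of_nonneg_right (le_max_right _ _) (sq_nonneg m))
        field_simp
      rw [hits_succ]
      calc ∑ x ∈ ball u {1} (n + 1), avg u (hits u n) x ^ 2
          ≤ (m ^ 2 - ε ^ 2 / (8 * m)) * ∑ x ∈ ball u {1} n, hits u n x ^ 2 := hs
        _ ≤ κ * m ^ 2 * (√κ ^ n * m ^ n) ^ 2 := mul_le_mul hk ih hσ (by positivity)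
        _ = _ := by
            nth_rewrite 1 [← Real.sq_sqrt hκ0.le]
            ring
  by_cases hz : z ∈ ball u {1} n
  · exact le_of_abs_le ((abs_le_of_sq_le_sq ((single_le_sum (f := fun x => hits u n x ^ 2)
      (fun _ _ => sq_nonneg _) hz).trans (hnorm n)) (by positivity)))
  · rw [hits_eq_zero u n z hz]
    positivity

end FA.Kesten

end
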