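import Fermat.Agent.Kesten.Criterion
import Fermat.Agent.Root.SummaryTitsAlternative
import Fermat.Agent.Amenable.Free
import Mathlib.LinearAlgebra.Matrix.GeneralLinearGroup.Defs
import Mathlib.Probability.Distributions.Uniform
import Mathlib.Probability.ProductMeasure
import Mathlib.MeasureTheory.OuterMeasure.BorelCantelli
import Mathlib.Analysis.SpecialFunctions.Log.Basic
import Mathlib.Analysis.SpecificLimits.Basic

/-!
# Random products of integer matrices grow exponentially

In `SL_d (ℤ)` there are only exponentially many matrices with entries at most `e ^ (ε n)`, so decay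
of the walk makes the entries of random products grow exponentially.
-/

set_option autoImplicit false

noncomputable section

namespace FA.Kesten

open Finset MeasureTheory Filter
open scoped Classical ENNReal

variable {d : ℕ} {ι : Type*}

/-- A subgroup of `SL_d (ℤ)` which is not virtually solvable is not amenable. -/
theorem not_amenable {H : Subgroup (Matrix.SpecialLinearGroup (Fin d) ℤ)} (hfg : H.FG)
    (h : ¬ ∃ K : Subgroup H, K.FiniteIndex ∧ Group.IsSolvable K) : ¬ Amenable.IsAmenable H := by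
  have : Group.FG H := (Group.fg_iff_subgroup_fg _).2 hfg
  have hinj : Function.Injective
      ((Matrix.SpecialLinearGroup.toGL.comp
        (Matrix.SpecialLinearGroup.map (Int.castRingHom ℚ))).comp H.subtype) := fun a b e => by
    refine Subtype.ext (Matrix.SpecialLinearGroup.map_intCast_injective (R := ℚ) ?_)
    exact Subtype.ext (congrArg Units.val e :)
  obtain ⟨f, hf⟩ := (Summary.tits_alternative_of_faithful _ hinj).resolve_left h
  exact Amenable.not_isAmenable_of_free f hf

/-- All entries are at most `R` in absolute value. -/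
def InBox (R : ℝ) (g : Matrix.SpecialLinearGroup (Fin d) ℤ) : Prop := ∀ a b, |(g.1 a b : ℝ)| ≤ R

variable [Fintype ι]

/-- **Words with a small product are exponentially rare.** -/
theorem small_products_le {u : ι → Matrix.SpecialLinearGroup (Fin d) ℤ} {i₀ : ι} (h1 : u i₀ = 1)
    (h : ¬ ∃ K : Subgroup (Subgroup.closure (Set.range u)),
      K.FiniteIndex ∧ Group.IsSolvable K) :
    ∃ ε C ρ : ℝ, 0 < ε ∧ 0 ≤ C ∧ 0 < ρ ∧ ρ < 1 ∧ ∀ n,
      (#(univ.filter fun w : Fin n → ι => InBox (Real.exp (ε * n)) (wordProd u w)) : ℝ) ≤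
        C * ρ ^ n * (Fintype.card ι : ℝ) ^ n := by
  obtain ⟨θ, h0, hlt, hθ⟩ := hits_le h1 (not_amenable
    (Subgroup.fg_iff _ |>.2 ⟨_, rfl, Set.finite_range u⟩) h)
  set D : ℝ := ((d * d : ℕ) : ℝ)
  set ε := -Real.log θ / (2 * (D + 1)) with hε_def
  have hlog : Real.log θ < 0 := Real.log_neg h0 hlt
  have hD : 0 ≤ D := Nat.cast_nonneg _
  have hε : 0 < ε := div_pos (neg_pos.2 hlog) (by positivity)
  set ρ := Real.exp (ε * D) * θ with hρ_def
  have hρ1 : ρ < 1 := by
    rw [hρ_def, ← Real.exp_log h0, ← Real.exp_add, Real.exp_lt_one_iff]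
    have h2 : ε * D ≤ -Real.log θ / 2 := by
      rw [hε_def, div_mul_eq_mul_div, div_le_div_iff₀ (by positivity) two_pos]
      nlinarith
    linarith
  refine ⟨ε, 3 ^ (d * d), ρ, hε, by positivity, mul_pos (Real.exp_pos _) h0, hρ1, fun n => ?_⟩
  set R := Real.exp (ε * n) with hR
  have hR1 : 1 ≤ R := Real.one_le_exp (by positivity)
  set M := ⌊R⌋₊
  set Z := (univ.filter fun w : Fin n → ι => InBox R (wordProd u w)).image (wordProd u)
  have hZ : #Z ≤ (2 * M + 1) ^ (d * d) := by
    refine le_trans (card_le_card_of_injOn (fun g => fun x : Fin d × Fin d => g.1 x.1 x.2)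
      (t := Fintype.piFinset fun _ : Fin d × Fin d => Icc (-(M : ℤ)) M) (fun g hg => ?_)
      fun g _ g' _ e => Subtype.ext (Matrix.ext fun a b => congrFun e (a, b))) (le_of_eq ?_)
    · obtain ⟨w, hw, rfl⟩ := mem_image.1 hg
      refine mem_coe.2 (Fintype.mem_piFinset.2 fun x => mem_Icc.2 (abs_le.1 ?_))
      have hb := (mem_filter.1 hw).2 x.1 x.2
      rw [← Int.cast_abs] at hb
      have := Int.le_floor.2 hb
      rwa [← Int.natCast_floor_eq_floor (zero_le_one.trans hR1)] at this
    · rw [Fintype.card_piFinset, prod_const, Int.card_Icc, card_univ, Fintype.card_prod,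
        Fintype.card_fin]
      congr 1
      omega
  have hcount : (#(univ.filter fun w : Fin n → ι => InBox R (wordProd u w)) : ℝ) ≤
      ∑ z ∈ Z, hits u n z := by
    simp only [hits]
    rw [← Nat.cast_sum, Nat.cast_le]
    refine le_of_eq_of_le (card_eq_sum_card_fiberwise (t := Z)
      fun w hw => mem_image_of_mem _ hw) (sum_le_sum fun z _ => card_le_card fun w hw => ?_)
    simp only [mem_filter, mem_univ, true_and] at hw ⊢
    exact hw.2
  refine hcount.trans ((sum_le_card_nsmul _ _ _ fun z _ => hθ n z).trans ?_)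
  rw [nsmul_eq_mul]
  calc (#Z : ℝ) * (θ ^ n * (Fintype.card ι : ℝ) ^ n)
      ≤ (3 * R) ^ (d * d) * (θ ^ n * (Fintype.card ι : ℝ) ^ n) := by
        refine mul_le_mul_of_nonneg_right ?_ (by positivity)
        refine le_trans (Nat.cast_le.2 hZ) ?_
        rw [Nat.cast_pow]
        refine pow_le_pow_left₀ (by positivity) ?_ _
        push_cast
        linarith [Nat.floor_le (zero_le_one.trans hR1)]
    _ = _ := by
        rw [mul_pow, hρ_def, mul_pow (Real.exp _), ← Real.exp_nat_mul (ε * D), hR,
          ← Real.exp_nat_mul, show (n : ℝ) * (ε * D) = (((d * d : ℕ) : ℝ)) * (ε * n) by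
            simp only [D]; ring]
        ring

/-- **Random products grow exponentially**, almost surely. -/
theorem ae_eventually_large [MeasurableSpace ι] [MeasurableSingletonClass ι] [Nonempty ι]
    {u : ι → Matrix.SpecialLinearGroup (Fin d) ℤ} {i₀ : ι} (h1 : u i₀ = 1)
    (h : ¬ ∃ K : Subgroup (Subgroup.closure (Set.range u)),
      K.FiniteIndex ∧ Group.IsSolvable K) :
    ∃ ε : ℝ, 0 < ε ∧ ∀ᵐ ω ∂(Measure.infinitePi fun _ : ℕ => (PMF.uniformOfFintype ι).toMeasure),
      ∀ᶠ n : ℕ in atTop, ∃ a b,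
        Real.exp (ε * n) < |((wordProd u fun i : Fin n => ω i).1 a b : ℝ)| := by
  obtain ⟨ε, C, ρ, hε, hC, hρ0, hρ1, hcount⟩ := small_products_le h1 h
  refine ⟨ε, hε, ?_⟩
  set μ := Measure.infinitePi fun _ : ℕ => (PMF.uniformOfFintype ι).toMeasure
  set E : ℕ → Set (ℕ → ι) := fun n =>
    {ω | InBox (Real.exp (ε * n)) (wordProd u fun i : Fin n => ω i)}
  have hE : ∀ n, μ (E n) ≤ ENNReal.ofReal (C * ρ ^ n) := by
    intro n
    set W := univ.filter fun w : Fin n → ι => InBox (Real.exp (ε * n)) (wordProd u w)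
    have hsub : E n ⊆ ⋃ w ∈ W,
        Set.pi (range n : Set ℕ) fun i => if hi : i < n then {w ⟨i, hi⟩} else Set.univ := by
      intro ω hω
      refine Set.mem_iUnion₂.2 ⟨fun i : Fin n => ω i, mem_filter.2 ⟨mem_univ _, hω⟩,
        fun i hi => ?_⟩
      simp only [coe_range, Set.mem_Iio] at hi
      simp [hi]
    have hm : ∀ w : Fin n → ι, μ (Set.pi (range n : Set ℕ)
        fun i => if hi : i < n then {w ⟨i, hi⟩} else Set.univ) =
        ((Fintype.card ι : ℝ≥0∞)⁻¹) ^ n := by
      intro w
      rw [Measure.infinitePi_pi _ fun i _ => ?_]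
      · rw [prod_congr rfl fun i hi => ?_, prod_const, card_range]
        rw [dif_pos (mem_range.1 hi), PMF.toMeasure_apply_singleton _ _ (measurableSet_singleton _),
          PMF.uniformOfFintype_apply]
      · split_ifs <;> simp
    refine (measure_mono hsub).trans ((measure_biUnion_finset_le W _).trans ?_)
    simp only [hm]
    rw [sum_const, nsmul_eq_mul]
    have hk : (0 : ℝ) < Fintype.card ι := Nat.cast_pos.2 Fintype.card_pos
    calc (#W : ℝ≥0∞) * ((Fintype.card ι : ℝ≥0∞)⁻¹) ^ n
        = ENNReal.ofReal ((#W : ℝ) * ((Fintype.card ι : ℝ)⁻¹) ^ n) := by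
          rw [ENNReal.ofReal_mul (Nat.cast_nonneg _), ENNReal.ofReal_natCast,
            ENNReal.ofReal_pow (inv_nonneg.2 hk.le), ENNReal.ofReal_inv_of_pos hk,
            ENNReal.ofReal_natCast]
      _ ≤ _ := ENNReal.ofReal_le_ofReal (by
          rw [inv_pow, ← div_eq_mul_inv, div_le_iff₀ (pow_pos hk n)]
          exact hcount n)
  have hsum : ∑' n, μ (E n) ≠ ∞ := by
    refine ne_top_of_le_ne_top ?_ (ENNReal.tsum_le_tsum hE)
    rw [← ENNReal.ofReal_tsum_of_nonneg (fun n => by positivity)
      ((summable_geometric_of_lt_one hρ0.le hρ1).mul_left C)]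
    exact ENNReal.ofReal_ne_top
  filter_upwards [ae_eventually_notMem hsum] with ω hω
  filter_upwards [hω] with n hn
  simpa [E, InBox] using hn

end FA.Kesten

end
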