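import Fermat.Agent.Kesten.Expansion
import Mathlib.Algebra.Order.Chebyshev

/-!
# From decay of the returns to expansion of sets

For symmetric steps the squared norms of the iterates of averaging are log-convex, so exponentially
few closed words force a gap, and then almost invariant finite sets cannot exist.
-/

set_option autoImplicit false

noncomputable section

namespace FA.Kesten

open Finset
open scoped Classical

variable {G ι : Type*} [Group G] [Fintype ι]

/-- Iterated averaging. -/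
def iter (u : ι → G) (f : G → ℝ) : ℕ → G → ℝ
  | 0 => f
  | n + 1 => avg u (iter u f n)

theorem iter_eq_zero (u : ι → G) {f : G → ℝ} {F : Finset G} (hF : ∀ x ∉ F, f x = 0) :
    ∀ n, ∀ x ∉ ball u F n, iter u f n x = 0
  | 0 => hF
  | n + 1 => avg_eq_zero u (iter_eq_zero u hF n)

theorem ball_subset_succ {u : ι → G} {i₀ : ι} (h1 : u i₀ = 1) (F : Finset G) (n : ℕ) :
    ball u F n ⊆ ball u F (n + 1) := fun x hx =>
  mem_image.2 ⟨(i₀, x), mem_product.2 ⟨mem_univ _, hx⟩, by simp [h1]⟩

theorem sum_shift (g : G) {a b : G → ℝ} {T : Finset G} (ha : ∀ x ∉ T, a x = 0)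
    (hb : ∀ x ∉ T, b x = 0) :
    ∑ x ∈ T, a (g⁻¹ * x) * b x = ∑ y ∈ T, a y * b (g * y) := by
  refine sum_bij_ne_zero (fun x _ _ => g⁻¹ * x) (fun x _ hx => ?_)
    (fun x _ _ y _ _ e => mul_left_cancel e) (fun y _ hy => ⟨g * y, ?_, ?_, by simp⟩)
    fun x _ _ => by simp
  · exact by_contra fun h => hx (by rw [ha _ h, zero_mul])
  · exact by_contra fun h => hy (by rw [hb _ h, mul_zero])
  · rwa [inv_mul_cancel_left]

/-- Averaging over symmetric steps is self-adjoint. -/
theorem sum_avg_mul {u : ι → G} (σ : ι ≃ ι) (hσ : ∀ i, u (σ i) = (u i)⁻¹) {a b : G → ℝ}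
    {T : Finset G} (ha : ∀ x ∉ T, a x = 0) (hb : ∀ x ∉ T, b x = 0) :
    ∑ x ∈ T, avg u a x * b x = ∑ x ∈ T, a x * avg u b x := by
  simp only [avg, sum_mul, mul_sum]
  rw [sum_comm]
  conv_rhs => rw [sum_comm]
  exact Fintype.sum_equiv σ _ _ fun i => by rw [sum_shift _ ha hb, hσ, inv_inv]

/-- The squared norm of an iterate. -/
def energy (u : ι → G) (f : G → ℝ) (F : Finset G) (n : ℕ) : ℝ :=
  ∑ x ∈ ball u F n, iter u f n x ^ 2

theorem sum_eq_energy (u : ι → G) {f : G → ℝ} {F T : Finset G} (hF : ∀ x ∉ F, f x = 0) {n : ℕ}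
    (h : ball u F n ⊆ T) : ∑ x ∈ T, iter u f n x ^ 2 = energy u f F n :=
  (sum_subset h fun x _ hx => by simp [iter_eq_zero u hF n x hx]).symm

/-- **Log-convexity.** -/
theorem energy_sq_le {u : ι → G} (σ : ι ≃ ι) (hσ : ∀ i, u (σ i) = (u i)⁻¹) {i₀ : ι}
    (h1 : u i₀ = 1) {f : G → ℝ} {F : Finset G} (hF : ∀ x ∉ F, f x = 0) (n : ℕ) :
    energy u f F (n + 1) ^ 2 ≤ energy u f F n * energy u f F (n + 2) := by
  set T := ball u F (n + 2)
  have hn1 : ball u F (n + 1) ⊆ T := ball_subset_succ h1 F (n + 1)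
  have hn : ball u F n ⊆ T := (ball_subset_succ h1 F n).trans hn1
  have e : ∑ x ∈ T, iter u f (n + 1) x ^ 2 = ∑ x ∈ T, iter u f n x * iter u f (n + 2) x := by
    simp only [sq]
    exact sum_avg_mul σ hσ (fun x hx => iter_eq_zero u hF n x fun h => hx (hn h))
      (fun x hx => iter_eq_zero u hF (n + 1) x fun h => hx (hn1 h))
  rw [← sum_eq_energy u hF hn1, e, ← sum_eq_energy u hF hn,
    ← sum_eq_energy u hF (n := n + 2) (T := T) subset_rfl]
  exact sum_mul_sq_le_sq_mul_sq T (iter u f n) (iter u f (n + 2))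

/-- The iterates of an indicator count words. -/
theorem iter_indicator (u : ι → G) (F : Finset G) (n : ℕ) : ∀ x,
    iter u (fun y => if y ∈ F then 1 else 0) n x = ∑ y ∈ F, hits u n (x * y⁻¹) := by
  induction n with
  | zero =>
    intro x
    simp [iter, hits, wordProd, eq_mul_inv_iff_mul_eq, apply_ite card]
  | succ n ih =>
    intro x
    simp only [iter, avg, ih, hits_succ, mul_assoc]
    exact sum_comm

/-- A pair of words with the same product gives a closed word. -/
theorem sum_hits_sq_le {u : ι → G} (σ : ι ≃ ι) (hσ : ∀ i, u (σ i) = (u i)⁻¹) (n : ℕ)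
    (T : Finset G) : ∑ z ∈ T, hits u n z ^ 2 ≤ hits u (n + n) 1 := by
  set P := (univ : Finset ((Fin n → ι) × (Fin n → ι))).filter
    fun p => wordProd u p.1 = wordProd u p.2
  have hP : ∑ z ∈ T, hits u n z ^ 2 ≤ (#P : ℝ) := by
    have h2 : ∀ z, hits u n z ^ 2 = (#(P.filter fun p => wordProd u p.1 = z) : ℝ) := fun z => by
      have e : P.filter (fun p => wordProd u p.1 = z) =
          (univ.filter fun w : Fin n → ι => wordProd u w = z) ×ˢ
            (univ.filter fun w : Fin n → ι => wordProd u w = z) := by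
        ext p
        simp only [P, mem_filter, mem_univ, true_and, mem_product]
        exact ⟨fun ⟨a, b⟩ => ⟨b, a ▸ b⟩, fun ⟨a, b⟩ => ⟨a.trans b.symm, a⟩⟩
      rw [e, card_product, hits, sq, Nat.cast_mul]
    rw [sum_congr rfl fun z _ => h2 z, ← Nat.cast_sum, Nat.cast_le,
      ← card_biUnion fun a _ b _ hab => disjoint_filter.2 fun _ _ e e' => hab (e.symm.trans e')]
    exact card_le_card (biUnion_subset.2 fun z _ => filter_subset _ _)
  refine hP.trans (Nat.cast_le.2 (card_le_card_of_injOn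
    (fun p => Fin.append p.1 fun i => σ (p.2 (Fin.rev i))) (fun p hp => ?_)
    fun p _ q _ h => ?_))
  · have hr : ∀ {m : ℕ} (w : Fin m → ι),
        wordProd u (fun i => σ (w (Fin.rev i))) = (wordProd u w)⁻¹ := fun {m} w => by
      simp only [wordProd, hσ, List.prod_inv_reverse, List.map_ofFn, Function.comp_def]
      congr 1
      exact List.ext_getElem (by simp) fun i _ _ => by simp [Fin.rev, Nat.add_comm i 1, Nat.sub_sub]
    refine mem_coe.2 (mem_filter.2 ⟨mem_univ _, ?_⟩)
    have hp' : wordProd u p.1 = wordProd u p.2 := (mem_filter.1 hp).2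
    show wordProd u (Fin.append p.1 fun i => σ (p.2 (Fin.rev i))) = 1
    rw [wordProd, show (fun i => u (Fin.append p.1 (fun i => σ (p.2 (Fin.rev i))) i)) =
      Fin.append (fun i => u (p.1 i)) (fun i => u (σ (p.2 (Fin.rev i)))) by
        funext i
        refine Fin.addCases (fun i => ?_) (fun i => ?_) i <;>
          simp only [Fin.append_left, Fin.append_right],
      List.ofFn_fin_append, List.prod_append]
    exact (congrArg₂ (· * ·) hp' (hr p.2)).trans (mul_inv_cancel _)
  · refine Prod.ext ?_ ?_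
    · funext i
      simpa using congrFun h (Fin.castAdd n i)
    · funext i
      have := congrFun h (Fin.natAdd n (Fin.rev i))
      simp only [Fin.append_right, Fin.rev_rev] at this
      exact σ.injective this

/-- **Exponentially few closed words force expansion.** -/
theorem expands_of_returns {u : ι → G} (σ : ι ≃ ι) (hσ : ∀ i, u (σ i) = (u i)⁻¹) {i₀ : ι}
    (h1 : u i₀ = 1) {C ρ : ℝ} (hC : 0 ≤ C) (hρ0 : 0 ≤ ρ) (hρ1 : ρ < 1)
    (h : ∀ n, hits u n 1 ≤ C * ρ ^ n * (Fintype.card ι : ℝ) ^ n) :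
    Expands u ((1 - ρ) / 2) := by
  intro F hne
  by_contra! hall
  set m : ℝ := (Fintype.card ι : ℝ)
  have hm : 0 < m := Nat.cast_pos.2 (Fintype.card_pos_iff.2 ⟨i₀⟩)
  set f : G → ℝ := fun y => if y ∈ F then 1 else 0
  have hF : ∀ x ∉ F, f x = 0 := fun x hx => by simp [f, hx]
  set t := energy u f F
  have ht0 : t 0 = (#F : ℝ) := by simp [t, energy, ball, iter, f]
  have hFpos : (0 : ℝ) < #F := Nat.cast_pos.2 (card_pos.2 hne)
  -- the iterates are small
  have hup : ∀ n, t n ≤ (#F : ℝ) ^ 2 * C * (ρ ^ 2 * m ^ 2) ^ n := by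
    intro n
    calc t n ≤ ∑ x ∈ ball u F n, #F * ∑ y ∈ F, hits u n (x * y⁻¹) ^ 2 :=
          sum_le_sum fun x _ => by
            rw [iter_indicator]
            exact sq_sum_le_card_mul_sum_sq
      _ = #F * ∑ y ∈ F, ∑ x ∈ ball u F n, hits u n (x * y⁻¹) ^ 2 := by
          rw [← mul_sum, sum_comm]
      _ ≤ #F * ∑ y ∈ F, C * ρ ^ (n + n) * m ^ (n + n) := by
          refine mul_le_mul_of_nonneg_left (sum_le_sum fun y _ => ?_) hFpos.le
          rw [← sum_image (f := fun z => hits u n z ^ 2) fun a _ b _ e => mul_right_cancel e]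
          exact (sum_hits_sq_le σ hσ n _).trans (h (n + n))
      _ = _ := by rw [sum_const, nsmul_eq_mul]; ring
  -- the first step loses little
  have hlow : (m * ((1 + ρ) / 2)) ^ 2 * t 0 ≤ t 1 := by
    have hsum : m * ((1 + ρ) / 2) * #F ≤ ∑ x ∈ F, avg u f x := by
      rw [show ∑ x ∈ F, avg u f x = ∑ i, ∑ x ∈ F, f ((u i)⁻¹ * x) from sum_comm]
      refine le_trans (le_of_eq ?_) (card_nsmul_le_sum univ _ ((1 + ρ) / 2 * #F) fun i _ => ?_)
      · rw [nsmul_eq_mul, card_univ, mul_assoc]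
      · have e : ∑ x ∈ F, f ((u i)⁻¹ * x) = #F - #(F.image (u i * ·) \ F) := by
          have hc := card_sdiff_add_card_inter (F.image (u i * ·)) F
          rw [card_image_of_injective _ (mul_right_injective _)] at hc
          rw [show ∑ x ∈ F, f ((u i)⁻¹ * x) = #(F.image (u i * ·) ∩ F) by
            simp only [f, sum_boole]
            congr 2
            ext x
            simp only [mem_filter, mem_inter, mem_image]
            exact ⟨fun ⟨a, b⟩ => ⟨⟨_, b, mul_inv_cancel_left _ _⟩, a⟩,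
              fun ⟨⟨y, hy, e⟩, a⟩ => ⟨a, by rw [← e, inv_mul_cancel_left]; exact hy⟩⟩]
          rw [eq_sub_iff_add_eq, add_comm]
          exact_mod_cast hc
        linarith [hall i]
    have hCS := sq_sum_le_card_mul_sum_sq (s := F) (f := avg u f)
    have hsub : ∑ x ∈ F, avg u f x ^ 2 ≤ t 1 :=
      sum_le_sum_of_subset_of_nonneg (ball_subset_succ h1 F 0) fun _ _ _ => sq_nonneg _
    refine le_of_mul_le_mul_left ?_ hFpos
    calc (#F : ℝ) * ((m * ((1 + ρ) / 2)) ^ 2 * t 0) = (m * ((1 + ρ) / 2) * #F) ^ 2 := by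
          rw [ht0]; ring
      _ ≤ (∑ x ∈ F, avg u f x) ^ 2 := pow_le_pow_left₀ (by positivity) hsum 2
      _ ≤ #F * ∑ x ∈ F, avg u f x ^ 2 := hCS
      _ ≤ _ := mul_le_mul_of_nonneg_left hsub hFpos.le
  -- growth by log-convexity
  set r := (m * ((1 + ρ) / 2)) ^ 2 with hr_def
  have hr : 0 < r := by positivity
  have hgrow : ∀ n, r ^ n * t 0 ≤ t n ∧ r * t n ≤ t (n + 1) := by
    intro n
    induction n with
    | zero => exact ⟨by simp, hlow⟩
    | succ n ih =>
      have htn : 0 < t n := lt_of_lt_of_le (by rw [ht0]; positivity) ih.1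
      refine ⟨le_trans (le_of_eq (by rw [pow_succ]; ring))
        ((mul_le_mul_of_nonneg_left ih.1 hr.le).trans ih.2), ?_⟩
      have h1' : t (n + 1) ^ 2 ≤ t n * t (n + 2) := energy_sq_le σ hσ h1 hF n
      refine le_of_mul_le_mul_left ?_ htn
      calc t n * (r * t (n + 1)) = r * t n * t (n + 1) := by ring
        _ ≤ t (n + 1) * t (n + 1) := mul_le_mul_of_nonneg_right ih.2
            ((mul_nonneg hr.le htn.le).trans ih.2)
        _ ≤ _ := by rwa [← sq]
  have hq : ρ ^ 2 * m ^ 2 < r := by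
    rw [hr_def, mul_pow, mul_comm]
    exact mul_lt_mul_of_pos_left (pow_lt_pow_left₀ (by linarith) hρ0 two_ne_zero) (by positivity)
  set q := ρ ^ 2 * m ^ 2 / r
  have hq1 : q < 1 := (div_lt_one hr).2 hq
  obtain ⟨n, hn⟩ := exists_pow_lt_of_lt_one
    (show (0 : ℝ) < 1 / ((#F : ℝ) * C + 1) by positivity) hq1
  have := (hgrow n).1.trans (hup n)
  rw [ht0, show (ρ ^ 2 * m ^ 2) ^ n = r ^ n * q ^ n by
    rw [← mul_pow r q n, mul_div_cancel₀ _ hr.ne']] at this
  rw [lt_div_iff₀ (by positivity)] at hn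
  have hq0 : 0 ≤ q ^ n := by positivity
  nlinarith [mul_pos (pow_pos hr n) hFpos]

end FA.Kesten

end
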